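/-
S25 package A6 core, piece DIV (helper1705): single-ring commutative algebra (Mathlib only).

* `ordIdeal B s`: the order ideal `{ψ s | ψ ∈ Lᵛ}` of an element `s` of a `B`-module `L`;
  for `L` invertible: `dual_smul_swap` (`ψ m • s = ψ s • m`),
  `ordIdeal_smul_top` (`𝔞 • ⊤ = B ∙ s`);
* `finite_of_invertible_over`, `projective_of_invertible_over`: an `R`-algebra `O` carrying an
  invertible `O`-module `T` which is finite (projective) over `R` is finite (projective) over `R`;
* `finrank_eq_of_invertible_over`: over a field, `dim T = dim O` for `T` invertible over a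
  finite-dimensional algebra `O`;
* `rankAtStalk_eq_of_invertible_over`: for `O` finite flat over `R` and `T` invertible over `O`,
  `T` and `O` have the same rank function on `Spec R`.
-/
import Mathlib

set_option autoImplicit false

namespace Fermat.Agent.S25.ATLAS.DIV.GoodMem.H2845.H1705

open scoped TensorProduct

section Order

variable (B : Type*) [CommRing B] {L : Type*} [AddCommGroup L] [Module B L]

/-- The order ideal of an element: all values of linear functionals at it. -/
def ordIdeal (s : L) : Ideal B := LinearMap.range (Module.Dual.eval B L s)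

variable {B}

theorem mem_ordIdeal {s : L} {a : B} : a ∈ ordIdeal B s ↔ ∃ ψ : Module.Dual B L, ψ s = a :=
  Iff.rfl

theorem dual_apply_mem_ordIdeal (ψ : Module.Dual B L) (s : L) : ψ s ∈ ordIdeal B s := ⟨ψ, rfl⟩

/-- Rank-one identity in an invertible module: `ψ m • s = ψ s • m`. -/
theorem dual_smul_swap [Module.Invertible B L] (ψ : Module.Dual B L) (m s : L) :
    ψ m • s = ψ s • m := by
  have h : m ⊗ₜ[B] s = s ⊗ₜ[B] m := Module.Invertible.tmul_comm
  have := congrArg (TensorProduct.lift (ψ.smulRight (LinearMap.id : L →ₗ[B] L))) h
  simpa using this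

/-- Elements of the order ideal of `s` multiply the whole module into `B ∙ s`. -/
theorem ordIdeal_smul_mem_span [Module.Invertible B L] {s : L} {a : B} (ha : a ∈ ordIdeal B s)
    (m : L) : a • m ∈ Submodule.span B {s} := by
  obtain ⟨ψ, rfl⟩ := ha
  change ψ s • m ∈ _
  rw [← dual_smul_swap ψ m s]
  exact Submodule.smul_mem _ _ (Submodule.subset_span rfl)

/-- In an invertible module there is a "partition of unity": functionals `ψ i` and elements
`n i` with `∑ ψ i (n i) = 1`. -/
theorem exists_dual_partition (B : Type*) [CommRing B] (L : Type*) [AddCommGroup L] [Module B L]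
    [Module.Invertible B L] :
    ∃ (m : ℕ) (ψ : Fin m → Module.Dual B L) (n : Fin m → L), ∑ i, ψ i (n i) = 1 := by
  obtain ⟨t, ht⟩ := (Module.Invertible.bijective (R := B) (M := L)).2 1
  obtain ⟨S, hS⟩ := TensorProduct.exists_finset t
  classical
  let e := S.equivFin
  refine ⟨S.card, fun i => (e.symm i).1.1, fun i => (e.symm i).1.2, ?_⟩
  rw [← ht, hS, map_sum, ← Finset.sum_coe_sort S, ← Equiv.sum_comp e.symm]
  rfl

/-- `𝔞 • L = B ∙ s` for the order ideal `𝔞` of an element `s` of an invertible module `L`. -/
theorem ordIdeal_smul_top [Module.Invertible B L] (s : L) :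
    ordIdeal B s • (⊤ : Submodule B L) = Submodule.span B {s} := by
  apply le_antisymm
  · rw [Submodule.smul_le]
    intro a ha m _
    exact ordIdeal_smul_mem_span ha m
  · rw [Submodule.span_singleton_le_iff_mem]
    obtain ⟨m, ψ, n, h⟩ := exists_dual_partition B L
    have hs : s = ∑ i, ψ i s • n i := by
      calc s = (∑ i, ψ i (n i)) • s := by rw [h, one_smul]
        _ = ∑ i, ψ i (n i) • s := Finset.sum_smul
        _ = ∑ i, ψ i s • n i := Finset.sum_congr rfl fun i _ => dual_smul_swap (ψ i) (n i) s
    have hmem : (∑ i, ψ i s • n i) ∈ ordIdeal B s • (⊤ : Submodule B L) :=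
      Submodule.sum_mem _ fun i _ =>
        Submodule.smul_mem_smul (dual_apply_mem_ordIdeal (ψ i) s) Submodule.mem_top
    rwa [← hs] at hmem

end Order

section Over

variable (R O T : Type*) [CommRing R] [CommRing O] [Algebra R O] [AddCommGroup T] [Module O T]
  [Module R T] [IsScalarTower R O T]

/-- An algebra `O` carrying an invertible `O`-module `T` is an `R`-linear retract of a finite
power of `T`. -/
theorem exists_retract_pow_of_invertible [Module.Invertible O T] :
    ∃ (m : ℕ) (ι : O →ₗ[R] (Fin m → T)) (π : (Fin m → T) →ₗ[R] O), π ∘ₗ ι = LinearMap.id := by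
  obtain ⟨m, ψ, n, h⟩ := exists_dual_partition O T
  refine ⟨m, LinearMap.pi fun i => (LinearMap.toSpanSingleton O T (n i)).restrictScalars R,
    ∑ i, ((ψ i).restrictScalars R) ∘ₗ (LinearMap.proj i), ?_⟩
  ext a
  simp only [LinearMap.coe_comp, Function.comp_apply, LinearMap.sum_apply,
    LinearMap.coe_restrictScalars, LinearMap.coe_proj, Function.eval, LinearMap.pi_apply,
    LinearMap.toSpanSingleton_apply, map_smul, smul_eq_mul, LinearMap.id_coe, id_eq]
  rw [← Finset.mul_sum, h, mul_one]

/-- If an invertible `O`-module is finite over `R`, so is `O`. -/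
theorem finite_of_invertible_over [Module.Invertible O T] [Module.Finite R T] :
    Module.Finite R O := by
  obtain ⟨m, ι, π, h⟩ := exists_retract_pow_of_invertible R O T
  exact Module.Finite.of_surjective π fun a => ⟨ι a, LinearMap.congr_fun h a⟩

/-- If an invertible `O`-module is projective over `R`, so is `O`. -/
theorem projective_of_invertible_over [Module.Invertible O T] [Module.Projective R T] :
    Module.Projective R O := by
  obtain ⟨m, ι, π, h⟩ := exists_retract_pow_of_invertible R O T
  have : Module.Projective R (Fin m → T) :=
    Module.Projective.of_equiv (DFinsupp.linearEquivFunOnFintype (R := R) (M := fun _ : Fin m => T))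
  exact Module.Projective.of_split ι π h

/-- An invertible module over a finite `R`-algebra is finite over `R`. -/
theorem finite_over_of_invertible [Module.Invertible O T] [Module.Finite R O] :
    Module.Finite R T :=
  Module.Finite.trans O T

/-- An invertible `O`-module `T` is an `R`-linear retract of a finite power of `O`. -/
theorem exists_retract_pow_of_invertible' [Module.Invertible O T] :
    ∃ (m : ℕ) (ι : T →ₗ[R] (Fin m → O)) (π : (Fin m → O) →ₗ[R] T), π ∘ₗ ι = LinearMap.id := by
  obtain ⟨m, ψ, n, h⟩ := exists_dual_partition O T
  refine ⟨m, LinearMap.pi fun i => (ψ i).restrictScalars R,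
    ∑ i, ((LinearMap.toSpanSingleton O T (n i)).restrictScalars R) ∘ₗ (LinearMap.proj i), ?_⟩
  ext t
  simp only [LinearMap.coe_comp, Function.comp_apply, LinearMap.sum_apply,
    LinearMap.coe_restrictScalars, LinearMap.coe_proj, Function.eval, LinearMap.pi_apply,
    LinearMap.toSpanSingleton_apply, LinearMap.id_coe, id_eq]
  calc ∑ i, ψ i t • n i = ∑ i, ψ i (n i) • t :=
        Finset.sum_congr rfl fun i _ => dual_smul_swap (ψ i) t (n i)
    _ = (∑ i, ψ i (n i)) • t := Finset.sum_smul.symm
    _ = t := by rw [h, one_smul]

/-- An invertible module over a projective `R`-algebra is projective over `R`. -/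
theorem projective_over_of_invertible [Module.Invertible O T] [Module.Projective R O] :
    Module.Projective R T := by
  obtain ⟨m, ι, π, h⟩ := exists_retract_pow_of_invertible' R O T
  have : Module.Projective R (Fin m → O) :=
    Module.Projective.of_equiv (DFinsupp.linearEquivFunOnFintype (R := R) (M := fun _ : Fin m => O))
  exact Module.Projective.of_split ι π h

end Over

section Rank

/-- Over a field, an invertible module over a finite-dimensional algebra has the dimension of
the algebra. -/
theorem finrank_eq_of_invertible_over (K O T : Type*) [Field K] [CommRing O] [Algebra K O]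
    [Module.Finite K O] [AddCommGroup T] [Module O T] [Module K T] [IsScalarTower K O T]
    [Module.Invertible O T] : Module.finrank K T = Module.finrank K O := by
  have : IsArtinianRing O := IsArtinianRing.of_finite K O
  have hfree : Module.Free O T := inferInstance
  obtain ⟨e⟩ := Module.Invertible.free_iff_linearEquiv.mp hfree
  exact (e.restrictScalars K).finrank_eq

attribute [local instance] Algebra.TensorProduct.rightAlgebra in
/-- For a finite flat `R`-algebra `O` and an invertible `O`-module `T`, the `R`-modules `T` and
`O` have the same rank at every prime of `R`. -/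
theorem rankAtStalk_eq_of_invertible_over (R O T : Type*) [CommRing R] [CommRing O] [Algebra R O]
    [Module.Finite R O] [Module.Flat R O] [AddCommGroup T] [Module O T] [Module R T]
    [IsScalarTower R O T] [Module.Invertible O T] (p : PrimeSpectrum R) :
    Module.rankAtStalk (R := R) T p = Module.rankAtStalk (R := R) O p := by
  have : Module.Finite R T := Module.Finite.trans O T
  have : Module.Flat R T := Module.Flat.trans R O T
  rw [Module.rankAtStalk_eq, Module.rankAtStalk_eq]
  let K := p.asIdeal.ResidueField
  let e : (K ⊗[R] O) ⊗[O] T ≃ₗ[K] K ⊗[R] T :=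
    Algebra.IsPushout.cancelBaseChange R K O (K ⊗[R] O) T
  change Module.finrank K (K ⊗[R] T) = Module.finrank K (K ⊗[R] O)
  rw [← e.finrank_eq]
  exact finrank_eq_of_invertible_over K (K ⊗[R] O) ((K ⊗[R] O) ⊗[O] T)

end Rank

end Fermat.Agent.S25.ATLAS.DIV.GoodMem.H2845.H1705
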