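/-
S25 package A6 core, piece DIV (helper1705): cokernels of morphisms of glued modules.

On the frozen `Core.lean`, `A1/Basic.lean` and the published `Lib/Exact.lean` (helper7630).  Namespace `Fermat.Agent.S25.ATLAS.DIV.GoodMem.H2845.H1705`.

* `ι₁ₛ`, `ι₂ₛ`        : the restriction maps as semilinear maps along `r₁`, `r₂`;
* `coker φ`           : the cokernel of `φ : Hom N N'` as a glued module (chartwise quotients);
* `cokerProj φ`       : the projection `Hom N' (coker φ)`;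
* `shortExact_coker`  : `0 → N → N' → coker φ → 0` is `GluedModule.ShortExact` when `φ` is
  chartwise injective.
-/
import Fermat.Agent.S25.A1.Basic
import Fermat.Agent.S25.Lib.Exact

set_option autoImplicit false

universe u

namespace Fermat.Agent.S25.ATLAS.DIV.GoodMem.H2845.H1705

open Fermat.Agent.S25 Function

variable {R : Type u} [CommRing R] {𝔹 : TwoChart R}

/-- `ι₁` as an `r₁`-semilinear map. -/
def ι₁ₛ (N : GluedModule 𝔹) : N.N₁ →ₛₗ[(𝔹.r₁ : 𝔹.B₁ →+* 𝔹.B₁₂)] N.N₁₂ where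
  toFun := N.ι₁
  map_add' := N.ι₁.map_add
  map_smul' := N.ι₁_smul

/-- `ι₂` as an `r₂`-semilinear map. -/
def ι₂ₛ (N : GluedModule 𝔹) : N.N₂ →ₛₗ[(𝔹.r₂ : 𝔹.B₂ →+* 𝔹.B₁₂)] N.N₁₂ where
  toFun := N.ι₂
  map_add' := N.ι₂.map_add
  map_smul' := N.ι₂_smul

@[simp] theorem ι₁ₛ_apply (N : GluedModule 𝔹) (n : N.N₁) : ι₁ₛ N n = N.ι₁ n := rfl

@[simp] theorem ι₂ₛ_apply (N : GluedModule 𝔹) (n : N.N₂) : ι₂ₛ N n = N.ι₂ n := rfl

section coker

variable {N N' : GluedModule 𝔹} (φ : GluedModule.Hom N N')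

theorem range_le_comap₁ :
    LinearMap.range φ.φ₁ ≤ (LinearMap.range φ.φ₁₂).comap (ι₁ₛ N') := by
  rintro _ ⟨n, rfl⟩
  exact ⟨N.ι₁ n, φ.comm₁ n⟩

theorem range_le_comap₂ :
    LinearMap.range φ.φ₂ ≤ (LinearMap.range φ.φ₁₂).comap (ι₂ₛ N') := by
  rintro _ ⟨n, rfl⟩
  exact ⟨N.ι₂ n, φ.comm₂ n⟩

/-- The first restriction map of the cokernel. -/
def cokerι₁ : (N'.N₁ ⧸ LinearMap.range φ.φ₁) →ₗ[R] (N'.N₁₂ ⧸ LinearMap.range φ.φ₁₂) where
  toFun := Submodule.mapQ _ _ (ι₁ₛ N') (range_le_comap₁ φ)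
  map_add' := map_add _
  map_smul' r x := by
    rw [RingHom.id_apply, ← algebraMap_smul 𝔹.B₁ r x, map_smulₛₗ]
    rw [← algebraMap_smul 𝔹.B₁₂ r]
    congr 1
    exact 𝔹.r₁.commutes r

/-- The second restriction map of the cokernel. -/
def cokerι₂ : (N'.N₂ ⧸ LinearMap.range φ.φ₂) →ₗ[R] (N'.N₁₂ ⧸ LinearMap.range φ.φ₁₂) where
  toFun := Submodule.mapQ _ _ (ι₂ₛ N') (range_le_comap₂ φ)
  map_add' := map_add _
  map_smul' r x := by
    rw [RingHom.id_apply, ← algebraMap_smul 𝔹.B₂ r x, map_smulₛₗ]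
    rw [← algebraMap_smul 𝔹.B₁₂ r]
    congr 1
    exact 𝔹.r₂.commutes r

@[simp] theorem cokerι₁_mk (n : N'.N₁) :
    cokerι₁ φ (Submodule.Quotient.mk n) = Submodule.Quotient.mk (N'.ι₁ n) := rfl

@[simp] theorem cokerι₂_mk (n : N'.N₂) :
    cokerι₂ φ (Submodule.Quotient.mk n) = Submodule.Quotient.mk (N'.ι₂ n) := rfl

theorem cokerι₁_smul (b : 𝔹.B₁) (x : N'.N₁ ⧸ LinearMap.range φ.φ₁) :
    cokerι₁ φ (b • x) = 𝔹.r₁ b • cokerι₁ φ x :=
  map_smulₛₗ (Submodule.mapQ _ _ (ι₁ₛ N') (range_le_comap₁ φ)) b x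

theorem cokerι₂_smul (b : 𝔹.B₂) (x : N'.N₂ ⧸ LinearMap.range φ.φ₂) :
    cokerι₂ φ (b • x) = 𝔹.r₂ b • cokerι₂ φ x :=
  map_smulₛₗ (Submodule.mapQ _ _ (ι₂ₛ N') (range_le_comap₂ φ)) b x

/-- The cokernel of a morphism of glued modules, chart by chart. -/
@[reducible] def coker : GluedModule 𝔹 where
  N₁ := N'.N₁ ⧸ LinearMap.range φ.φ₁
  N₂ := N'.N₂ ⧸ LinearMap.range φ.φ₂
  N₁₂ := N'.N₁₂ ⧸ LinearMap.range φ.φ₁₂
  ι₁ := cokerι₁ φ
  ι₂ := cokerι₂ φ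
  ι₁_smul := cokerι₁_smul φ
  ι₂_smul := cokerι₂_smul φ
  surj₁ y := by
    obtain ⟨y, rfl⟩ := Submodule.Quotient.mk_surjective _ y
    obtain ⟨n, m, rfl⟩ := N'.surj₁ y
    exact ⟨Submodule.Quotient.mk n, m, rfl⟩
  ker₁ x hx := by
    obtain ⟨n, rfl⟩ := Submodule.Quotient.mk_surjective _ x
    rw [cokerι₁_mk, Submodule.Quotient.mk_eq_zero] at hx
    obtain ⟨z, hz⟩ := hx
    obtain ⟨w, m, rfl⟩ := N.surj₁ z
    rw [map_smul, φ.comm₁] at hz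
    have h1 : N'.ι₁ (𝔹.f ^ m • n - φ.φ₁ w) = 0 := by
      rw [map_sub, N'.ι₁_smul, ← hz, map_pow, ← mul_smul, ← mul_pow, 𝔹.fg, one_pow, one_smul,
        sub_self]
    obtain ⟨m', hm'⟩ := N'.ker₁ _ h1
    refine ⟨m' + m, ?_⟩
    rw [← Submodule.Quotient.mk_smul, Submodule.Quotient.mk_eq_zero]
    refine ⟨𝔹.f ^ m' • w, ?_⟩
    rw [smul_sub, sub_eq_zero] at hm'
    rw [map_smul, ← hm', pow_add, mul_smul]
  surj₂ y := by
    obtain ⟨y, rfl⟩ := Submodule.Quotient.mk_surjective _ y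
    obtain ⟨n, m, rfl⟩ := N'.surj₂ y
    exact ⟨Submodule.Quotient.mk n, m, rfl⟩
  ker₂ x hx := by
    obtain ⟨n, rfl⟩ := Submodule.Quotient.mk_surjective _ x
    rw [cokerι₂_mk, Submodule.Quotient.mk_eq_zero] at hx
    obtain ⟨z, hz⟩ := hx
    obtain ⟨w, m, rfl⟩ := N.surj₂ z
    rw [map_smul, φ.comm₂] at hz
    have h1 : N'.ι₂ (𝔹.g ^ m • n - φ.φ₂ w) = 0 := by
      rw [map_sub, N'.ι₂_smul, ← hz, map_pow, ← mul_smul, ← mul_pow, 𝔹.gf, one_pow, one_smul,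
        sub_self]
    obtain ⟨m', hm'⟩ := N'.ker₂ _ h1
    refine ⟨m' + m, ?_⟩
    rw [← Submodule.Quotient.mk_smul, Submodule.Quotient.mk_eq_zero]
    refine ⟨𝔹.g ^ m' • w, ?_⟩
    rw [smul_sub, sub_eq_zero] at hm'
    rw [map_smul, ← hm', pow_add, mul_smul]

/-- The projection onto the cokernel. -/
def cokerProj : GluedModule.Hom N' (coker φ) where
  φ₁ := Submodule.mkQ _
  φ₂ := Submodule.mkQ _
  φ₁₂ := Submodule.mkQ _
  comm₁ _ := rfl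
  comm₂ _ := rfl

@[simp] theorem cokerProj_φ₁ (n : N'.N₁) : (cokerProj φ).φ₁ n = Submodule.Quotient.mk n := rfl

@[simp] theorem cokerProj_φ₂ (n : N'.N₂) : (cokerProj φ).φ₂ n = Submodule.Quotient.mk n := rfl

@[simp] theorem cokerProj_φ₁₂ (n : N'.N₁₂) :
    (cokerProj φ).φ₁₂ n = Submodule.Quotient.mk n := rfl

/-- `0 → N → N' → coker φ → 0` is short exact as soon as `φ` is injective on the two charts. -/
theorem shortExact_coker (h₁ : Injective φ.φ₁) (h₂ : Injective φ.φ₂) :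
    GluedModule.ShortExact φ (cokerProj φ) where
  inj₁ := h₁
  exact₁ := fun y => by
    change Submodule.Quotient.mk y = 0 ↔ _
    rw [Submodule.Quotient.mk_eq_zero]; rfl
  surj₁ := Submodule.mkQ_surjective _
  inj₂ := h₂
  exact₂ := fun y => by
    change Submodule.Quotient.mk y = 0 ↔ _
    rw [Submodule.Quotient.mk_eq_zero]; rfl
  surj₂ := Submodule.mkQ_surjective _

end coker

end Fermat.Agent.S25.ATLAS.DIV.GoodMem.H2845.H1705
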