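/-
S25 package A6 core, piece DIV (helper1705): global sections as morphisms `O → N`, the quotient
`N / sO`, and the cohomology sequence of `0 → O → N → N / sO → 0`.

On the frozen `Core.lean`, `A1/Basic.lean`, the published `Lib/Exact.lean` (helper7630) and
`ATLAS/DIV/H1705/Coker.lean`.  Namespace `Fermat.Agent.S25.ATLAS.DIV.GoodMem.H2845.H1705`.

* `ofSection N s : Hom (unit 𝔹) N` for `s : N.H0` (`1 ↦ s`);
* `IsRegularSec N s` : `b ↦ b • s_i` is injective on both charts;
* `quotSec N s := coker (ofSection N s)` (chart modules `N_i ⧸ B_i s_i`), `shortExact_quotSec`;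
* `H0EquivFst`, `H1_subsingleton_of_bijective_ι₂` : a glued module whose second restriction map
  is bijective ("supported inside `W₁₂`") has `H⁰ = N₁` and `H¹ = 0`;
* `bijective_ι₂_of_bijective_smul` : this holds as soon as `g` acts bijectively on `N₂`.
-/
import Fermat.Agent.S25.ATLAS.DIV.GoodMem.H2845.Coker

set_option autoImplicit false

universe u

namespace Fermat.Agent.S25.ATLAS.DIV.GoodMem.H2845.H1705

open Fermat.Agent.S25 Function

variable {R : Type u} [CommRing R] {𝔹 : TwoChart R}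

/-! ### Sections as morphisms from the unit -/

/-- The morphism `O → N`, `1 ↦ s`, attached to a global section `s`. -/
def ofSection (N : GluedModule 𝔹) (s : N.H0) : GluedModule.Hom (GluedModule.unit 𝔹) N where
  φ₁ := LinearMap.toSpanSingleton 𝔹.B₁ N.N₁ (s : N.N₁ × N.N₂).1
  φ₂ := LinearMap.toSpanSingleton 𝔹.B₂ N.N₂ (s : N.N₁ × N.N₂).2
  φ₁₂ := LinearMap.toSpanSingleton 𝔹.B₁₂ N.N₁₂ (N.ι₁ (s : N.N₁ × N.N₂).1)
  comm₁ b := by
    change 𝔹.r₁ b • N.ι₁ (s : N.N₁ × N.N₂).1 = N.ι₁ (b • (s : N.N₁ × N.N₂).1)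
    rw [N.ι₁_smul]
  comm₂ b := by
    change 𝔹.r₂ b • N.ι₁ (s : N.N₁ × N.N₂).1 = N.ι₂ (b • (s : N.N₁ × N.N₂).2)
    rw [N.ι₂_smul, (N.mem_H0 _).1 s.2]

@[simp] theorem ofSection_φ₁ (N : GluedModule 𝔹) (s : N.H0) (b : 𝔹.B₁) :
    (ofSection N s).φ₁ b = b • (s : N.N₁ × N.N₂).1 := rfl

@[simp] theorem ofSection_φ₂ (N : GluedModule 𝔹) (s : N.H0) (b : 𝔹.B₂) :
    (ofSection N s).φ₂ b = b • (s : N.N₁ × N.N₂).2 := rfl

@[simp] theorem ofSection_φ₁₂ (N : GluedModule 𝔹) (s : N.H0) (b : 𝔹.B₁₂) :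
    (ofSection N s).φ₁₂ b = b • N.ι₁ (s : N.N₁ × N.N₂).1 := rfl

theorem range_ofSection_φ₁ (N : GluedModule 𝔹) (s : N.H0) :
    LinearMap.range (ofSection N s).φ₁ = Submodule.span 𝔹.B₁ {(s : N.N₁ × N.N₂).1} :=
  LinearMap.range_toSpanSingleton _

theorem range_ofSection_φ₂ (N : GluedModule 𝔹) (s : N.H0) :
    LinearMap.range (ofSection N s).φ₂ = Submodule.span 𝔹.B₂ {(s : N.N₁ × N.N₂).2} :=
  LinearMap.range_toSpanSingleton _

/-- A section is regular if it is killed by no nonzero function on either chart. -/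
structure IsRegularSec (N : GluedModule 𝔹) (s : N.H0) : Prop where
  reg₁ : ∀ b : 𝔹.B₁, b • (s : N.N₁ × N.N₂).1 = 0 → b = 0
  reg₂ : ∀ b : 𝔹.B₂, b • (s : N.N₁ × N.N₂).2 = 0 → b = 0

theorem IsRegularSec.injective₁ {N : GluedModule 𝔹} {s : N.H0} (h : IsRegularSec N s) :
    Injective (ofSection N s).φ₁ :=
  (injective_iff_map_eq_zero _).2 h.reg₁

theorem IsRegularSec.injective₂ {N : GluedModule 𝔹} {s : N.H0} (h : IsRegularSec N s) :
    Injective (ofSection N s).φ₂ :=
  (injective_iff_map_eq_zero _).2 h.reg₂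

/-- The quotient `N / sO` of a glued module by a global section. -/
@[reducible] def quotSec (N : GluedModule 𝔹) (s : N.H0) : GluedModule 𝔹 := coker (ofSection N s)

/-- `0 → O → N → N / sO → 0` for a regular section `s`. -/
theorem shortExact_quotSec {N : GluedModule 𝔹} {s : N.H0} (h : IsRegularSec N s) :
    GluedModule.ShortExact (ofSection N s) (cokerProj (ofSection N s)) :=
  shortExact_coker _ h.injective₁ h.injective₂

/-! ### Glued modules supported inside the overlap, seen from the first chart -/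

section support

variable (Q : GluedModule 𝔹)

/-- If `g` acts bijectively on `N₂`, then the restriction map `ι₂` is bijective. -/
theorem bijective_ι₂_of_bijective_smul (hg : Bijective fun n : Q.N₂ => 𝔹.g • n) :
    Bijective Q.ι₂ := by
  have hpow : ∀ m : ℕ, Bijective fun n : Q.N₂ => 𝔹.g ^ m • n := by
    intro m
    induction m with
    | zero =>
      have : (fun n : Q.N₂ => 𝔹.g ^ 0 • n) = id := by funext n; simp
      rw [this]
      exact bijective_id
    | succ m ih =>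
      have : (fun n : Q.N₂ => 𝔹.g ^ (m + 1) • n) =
          (fun n : Q.N₂ => 𝔹.g ^ m • n) ∘ fun n : Q.N₂ => 𝔹.g • n := by
        funext n
        simp [pow_succ, mul_smul]
      rw [this]
      exact ih.comp hg
  constructor
  · rw [injective_iff_map_eq_zero]
    intro n hn
    obtain ⟨m, hm⟩ := Q.ker₂ n hn
    exact (hpow m).1 (by simpa using hm)
  · intro y
    obtain ⟨n, m, rfl⟩ := Q.surj₂ y
    obtain ⟨n', rfl⟩ := (hpow m).2 n
    refine ⟨n', ?_⟩
    change Q.ι₂ n' = 𝔹.r₁ 𝔹.f ^ m • Q.ι₂ (𝔹.g ^ m • n')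
    rw [Q.ι₂_smul, map_pow, ← mul_smul, ← mul_pow, 𝔹.fg, one_pow, one_smul]

/-- If `ι₂` is bijective, global sections are the same as sections on the first chart. -/
noncomputable def H0EquivFst (h : Bijective Q.ι₂) : Q.H0 ≃ₗ[R] Q.N₁ :=
  LinearEquiv.ofBijective ((LinearMap.fst R Q.N₁ Q.N₂).comp Q.H0.subtype) <| by
    constructor
    · rw [injective_iff_map_eq_zero]
      rintro ⟨⟨a, b⟩, hab⟩ ha
      change a = 0 at ha
      rw [GluedModule.mem_H0] at hab
      subst ha
      have hb : b = 0 := h.1 (by rw [← hab, map_zero, map_zero])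
      subst hb
      rfl
    · intro a
      obtain ⟨b, hb⟩ := h.2 (Q.ι₁ a)
      exact ⟨⟨(a, b), (Q.mem_H0 _).2 hb.symm⟩, rfl⟩

@[simp] theorem H0EquivFst_apply (h : Bijective Q.ι₂) (x : Q.H0) :
    H0EquivFst Q h x = (x : Q.N₁ × Q.N₂).1 := rfl

/-- If `ι₂` is bijective (even just surjective), then `H¹ = 0`. -/
theorem H1_subsingleton_of_surjective_ι₂ (h : Surjective Q.ι₂) : Subsingleton Q.H1 := by
  rw [Submodule.Quotient.subsingleton_iff, eq_top_iff]
  intro y _
  obtain ⟨b, rfl⟩ := h y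
  exact ⟨(0, -b), by simp [GluedModule.d_apply]⟩

end support

end Fermat.Agent.S25.ATLAS.DIV.GoodMem.H2845.H1705
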