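/-
S25 package A6 core, piece DIV (helper1705): the divisor of a regular section of a glued line
bundle, and (Flat).

On the frozen `Core.lean`, `A1/Basic.lean`, the published `Lib/Exact.lean` (helper7630) and
`ATLAS/DIV/H1705/{Coker,Section,InvRank}.lean`.  Namespace `Fermat.Agent.S25.ATLAS.DIV.GoodMem.H2845.H1705`.

For a glued line bundle `N` over a two-chart `𝔹` and a global section `s`:
* `ordIdeal₁ N s`, `ordIdeal₂ N s` : the ideals of the zero scheme `D` of `s` on the two charts;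
* `bijective_ι₂_quotSec` : if `D` misses `V(g)` (`𝔞₂ ⊔ (g) = ⊤`) then `N / sO` is supported
  inside the first chart;
* `quotSecEquivH1` : if moreover `s` is regular, `H¹(N) = 0` and every global section of `N` is
  a multiple of `s`, then `N₁ ⧸ B₁ s₁ ≃ₗ[R] H¹(O)` (connecting homomorphism of
  `0 → O → N → N / sO → 0`);
* `flat_finite`, `flat_projective`, `flat_rankAtStalk` : **(Flat)** — then `B₁ ⧸ 𝔞₁` (the
  coordinate ring of `D`) is a finite projective `R`-module with the same rank function as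
  `H¹(O)`;
* `bijective_ofSection_H0` : conversely, if `B₁ ⧸ 𝔞₁` is finite projective of the same rank as
  `H¹(O)` at every maximal ideal and `H¹(N) = 0`, then `H⁰(O) → H⁰(N)`, `a ↦ a s`, is bijective.
-/
import Fermat.Agent.S25.ATLAS.DIV.GoodMem.H2845.Section
import Fermat.Agent.S25.ATLAS.DIV.GoodMem.H2845.InvRank

set_option autoImplicit false

universe u

namespace Fermat.Agent.S25.ATLAS.DIV.GoodMem.H2845.H1705

open Fermat.Agent.S25 Function
open scoped TensorProduct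

variable {R : Type u} [CommRing R] {𝔹 : TwoChart R}

/-- The ideal of the zero scheme of a section, on the first chart. -/
def ordIdeal₁ (N : GluedModule 𝔹) (s : N.H0) : Ideal 𝔹.B₁ := ordIdeal 𝔹.B₁ (s : N.N₁ × N.N₂).1

/-- The ideal of the zero scheme of a section, on the second chart. -/
def ordIdeal₂ (N : GluedModule 𝔹) (s : N.H0) : Ideal 𝔹.B₂ := ordIdeal 𝔹.B₂ (s : N.N₁ × N.N₂).2

section

variable {N : GluedModule 𝔹} (hN : N.IsLineBundle) (s : N.H0)

include hN in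
theorem ordIdeal₁_smul_top :
    ordIdeal₁ N s • (⊤ : Submodule 𝔹.B₁ N.N₁) = LinearMap.range (ofSection N s).φ₁ := by
  have := hN.inv₁
  rw [range_ofSection_φ₁]
  exact ordIdeal_smul_top _

include hN in
theorem ordIdeal₂_smul_top :
    ordIdeal₂ N s • (⊤ : Submodule 𝔹.B₂ N.N₂) = LinearMap.range (ofSection N s).φ₂ := by
  have := hN.inv₂
  rw [range_ofSection_φ₂]
  exact ordIdeal_smul_top _

include hN in
/-- If the zero scheme of `s` misses `V(g)`, then `g` acts bijectively on `N₂ ⧸ B₂ s₂`, so the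
quotient `N / sO` is supported inside the first chart. -/
theorem bijective_ι₂_quotSec (h₂ : ordIdeal₂ N s ⊔ Ideal.span {𝔹.g} = ⊤) :
    Bijective (quotSec N s).ι₂ := by
  have := hN.inv₂
  apply bijective_ι₂_of_bijective_smul
  obtain ⟨a, ha, c', hc', hac⟩ := Submodule.mem_sup.1 (h₂ ▸ Submodule.mem_top : (1 : 𝔹.B₂) ∈ _)
  obtain ⟨c, rfl⟩ := Ideal.mem_span_singleton'.1 hc'
  have hkill : ∀ x : (quotSec N s).N₂, a • x = 0 := by
    intro x
    obtain ⟨n, rfl⟩ := Submodule.Quotient.mk_surjective _ x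
    rw [← Submodule.Quotient.mk_smul, Submodule.Quotient.mk_eq_zero, range_ofSection_φ₂]
    exact ordIdeal_smul_mem_span ha n
  have hone : ∀ x : (quotSec N s).N₂, x = 𝔹.g • c • x := by
    intro x
    calc x = (a + c * 𝔹.g) • x := by rw [hac, one_smul]
      _ = 𝔹.g • c • x := by rw [add_smul, hkill, zero_add, mul_comm, mul_smul]
  constructor
  · intro x y hxy
    have hxy' : 𝔹.g • x = 𝔹.g • y := hxy
    rw [hone x, hone y, smul_comm 𝔹.g c x, smul_comm 𝔹.g c y, hxy']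
  · intro x
    exact ⟨c • x, (hone x).symm⟩

variable {s}

/-- The connecting homomorphism `H⁰(N / sO) → H¹(O)` is onto when `H¹(N) = 0`. -/
theorem δ_surjective (hreg : IsRegularSec N s) [Subsingleton N.H1] :
    Surjective (shortExact_quotSec hreg).δ := by
  intro y
  exact ((shortExact_quotSec hreg).exact_δ_H1 y).1 (Subsingleton.elim _ _)

/-- The connecting homomorphism `H⁰(N / sO) → H¹(O)` is injective iff every global section of
`N` is a multiple of `s`. -/
theorem δ_injective_iff (hreg : IsRegularSec N s) :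
    Injective (shortExact_quotSec hreg).δ ↔ Surjective (ofSection N s).H0 := by
  have h := shortExact_quotSec hreg
  constructor
  · intro hinj y
    have h0 : (cokerProj (ofSection N s)).H0 y = 0 := by
      apply hinj
      rw [map_zero]
      exact (h.exact_H0_δ _).2 ⟨y, rfl⟩
    exact (h.H0_exact y).1 h0
  · intro hsurj
    rw [injective_iff_map_eq_zero]
    intro x hx
    obtain ⟨y, rfl⟩ := (h.exact_H0_δ x).1 hx
    obtain ⟨z, rfl⟩ := hsurj y
    exact (h.H0_exact _).2 ⟨z, rfl⟩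

/-- `N₁ ⧸ B₁ s₁ ≃ H¹(O)`: the connecting homomorphism of `0 → O → N → N / sO → 0`, when the
zero scheme of `s` lies in the first chart, `H¹(N) = 0` and `H⁰(N) = H⁰(O) s`. -/
noncomputable def quotSecEquivH1 (hreg : IsRegularSec N s) (hι : Bijective (quotSec N s).ι₂)
    [Subsingleton N.H1] (hH0 : Surjective (ofSection N s).H0) :
    (N.N₁ ⧸ LinearMap.range (ofSection N s).φ₁) ≃ₗ[R] (GluedModule.unit 𝔹).H1 :=
  (H0EquivFst (quotSec N s) hι).symm.trans
    (LinearEquiv.ofBijective (shortExact_quotSec hreg).δ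
      ⟨(δ_injective_iff hreg).2 hH0, δ_surjective hreg⟩)

end

/-! ### The coordinate ring of the zero scheme -/

section tensor

variable {N : GluedModule 𝔹} (hN : N.IsLineBundle) (s : N.H0)

include hN in
/-- `(B₁ ⧸ 𝔞₁) ⊗ N₁ ≃ N₁ ⧸ B₁ s₁`. -/
noncomputable def tensorQuotSecEquiv :
    ((𝔹.B₁ ⧸ ordIdeal₁ N s) ⊗[𝔹.B₁] N.N₁) ≃ₗ[𝔹.B₁]
      (N.N₁ ⧸ LinearMap.range (ofSection N s).φ₁) :=
  (TensorProduct.quotTensorEquivQuotSMul N.N₁ (ordIdeal₁ N s)).trans
    (Submodule.quotEquivOfEq _ _ (ordIdeal₁_smul_top hN s))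

variable {s}

include hN in
/-- **(Flat)**, finiteness: the coordinate ring `B₁ ⧸ 𝔞₁` of the zero scheme of `s` is a finite
`R`-module. -/
theorem flat_finite (hreg : IsRegularSec N s) (hι : Bijective (quotSec N s).ι₂)
    [Subsingleton N.H1] (hH0 : Surjective (ofSection N s).H0)
    [Module.Finite R (GluedModule.unit 𝔹).H1] :
    Module.Finite R (𝔹.B₁ ⧸ ordIdeal₁ N s) := by
  have := hN.inv₁
  let e : ((𝔹.B₁ ⧸ ordIdeal₁ N s) ⊗[𝔹.B₁] N.N₁) ≃ₗ[R] (GluedModule.unit 𝔹).H1 :=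
    ((tensorQuotSecEquiv hN s).restrictScalars R).trans (quotSecEquivH1 hreg hι hH0)
  have : Module.Finite R ((𝔹.B₁ ⧸ ordIdeal₁ N s) ⊗[𝔹.B₁] N.N₁) := Module.Finite.equiv e.symm
  exact finite_of_invertible_over R (𝔹.B₁ ⧸ ordIdeal₁ N s)
    ((𝔹.B₁ ⧸ ordIdeal₁ N s) ⊗[𝔹.B₁] N.N₁)

include hN in
/-- **(Flat)**, projectivity: the coordinate ring `B₁ ⧸ 𝔞₁` of the zero scheme of `s` is a
projective `R`-module. -/
theorem flat_projective (hreg : IsRegularSec N s) (hι : Bijective (quotSec N s).ι₂)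
    [Subsingleton N.H1] (hH0 : Surjective (ofSection N s).H0)
    [Module.Projective R (GluedModule.unit 𝔹).H1] :
    Module.Projective R (𝔹.B₁ ⧸ ordIdeal₁ N s) := by
  have := hN.inv₁
  let e : ((𝔹.B₁ ⧸ ordIdeal₁ N s) ⊗[𝔹.B₁] N.N₁) ≃ₗ[R] (GluedModule.unit 𝔹).H1 :=
    ((tensorQuotSecEquiv hN s).restrictScalars R).trans (quotSecEquivH1 hreg hι hH0)
  have : Module.Projective R ((𝔹.B₁ ⧸ ordIdeal₁ N s) ⊗[𝔹.B₁] N.N₁) :=
    Module.Projective.of_equiv e.symm
  exact projective_of_invertible_over R (𝔹.B₁ ⧸ ordIdeal₁ N s)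
    ((𝔹.B₁ ⧸ ordIdeal₁ N s) ⊗[𝔹.B₁] N.N₁)

include hN in
/-- **(Flat)**, rank: the coordinate ring `B₁ ⧸ 𝔞₁` of the zero scheme of `s` has the same rank
as `H¹(O)` at every prime of `R`. -/
theorem flat_rankAtStalk (hreg : IsRegularSec N s) (hι : Bijective (quotSec N s).ι₂)
    [Subsingleton N.H1] (hH0 : Surjective (ofSection N s).H0)
    [Module.Finite R (GluedModule.unit 𝔹).H1] [Module.Projective R (GluedModule.unit 𝔹).H1]
    (p : PrimeSpectrum R) :
    Module.rankAtStalk (R := R) (𝔹.B₁ ⧸ ordIdeal₁ N s) p =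
      Module.rankAtStalk (R := R) (GluedModule.unit 𝔹).H1 p := by
  have := hN.inv₁
  have := flat_finite hN hreg hι hH0
  have := flat_projective hN hreg hι hH0
  let e : ((𝔹.B₁ ⧸ ordIdeal₁ N s) ⊗[𝔹.B₁] N.N₁) ≃ₗ[R] (GluedModule.unit 𝔹).H1 :=
    ((tensorQuotSecEquiv hN s).restrictScalars R).trans (quotSecEquivH1 hreg hι hH0)
  rw [← rankAtStalk_eq_of_invertible_over R (𝔹.B₁ ⧸ ordIdeal₁ N s)
    ((𝔹.B₁ ⧸ ordIdeal₁ N s) ⊗[𝔹.B₁] N.N₁) p, Module.rankAtStalk_eq_of_equiv e]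

include hN in
/-- Converse of (Flat): if the coordinate ring `B₁ ⧸ 𝔞₁` of the zero scheme of `s` is finite
projective over `R` of the same rank as `H¹(O)` at every maximal ideal, the zero scheme lies in
the first chart and `H¹(N) = 0`, then `H⁰(O) → H⁰(N)`, `a ↦ a s`, is bijective. -/
theorem bijective_ofSection_H0 (hreg : IsRegularSec N s) (hι : Bijective (quotSec N s).ι₂)
    [Subsingleton N.H1]
    [Module.Finite R (𝔹.B₁ ⧸ ordIdeal₁ N s)] [Module.Projective R (𝔹.B₁ ⧸ ordIdeal₁ N s)]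
    [Module.Finite R (GluedModule.unit 𝔹).H1] [Module.Projective R (GluedModule.unit 𝔹).H1]
    (hrank : ∀ (m : Ideal R) [m.IsMaximal],
      Module.rankAtStalk (R := R) (𝔹.B₁ ⧸ ordIdeal₁ N s) ⟨m, inferInstance⟩ =
        Module.rankAtStalk (R := R) (GluedModule.unit 𝔹).H1 ⟨m, inferInstance⟩) :
    Bijective (ofSection N s).H0 := by
  have := hN.inv₁
  refine ⟨(shortExact_quotSec hreg).H0_injective, (δ_injective_iff hreg).1 ?_⟩
  have hfin : Module.Finite R ((𝔹.B₁ ⧸ ordIdeal₁ N s) ⊗[𝔹.B₁] N.N₁) :=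
    finite_over_of_invertible R (𝔹.B₁ ⧸ ordIdeal₁ N s) _
  have hproj : Module.Projective R ((𝔹.B₁ ⧸ ordIdeal₁ N s) ⊗[𝔹.B₁] N.N₁) :=
    projective_over_of_invertible R (𝔹.B₁ ⧸ ordIdeal₁ N s) _
  let e : ((𝔹.B₁ ⧸ ordIdeal₁ N s) ⊗[𝔹.B₁] N.N₁) ≃ₗ[R] (quotSec N s).H0 :=
    ((tensorQuotSecEquiv hN s).restrictScalars R).trans (H0EquivFst (quotSec N s) hι).symm
  have hbij : Bijective ((shortExact_quotSec hreg).δ ∘ₗ e.toLinearMap) := by
    apply Module.bijective_of_surjective_of_rankAtStalk_eq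
    · exact (δ_surjective hreg).comp e.surjective
    · intro m _
      rw [rankAtStalk_eq_of_invertible_over R (𝔹.B₁ ⧸ ordIdeal₁ N s)
        ((𝔹.B₁ ⧸ ordIdeal₁ N s) ⊗[𝔹.B₁] N.N₁) ⟨m, inferInstance⟩]
      exact hrank m
  have : ⇑(shortExact_quotSec hreg).δ =
      ⇑((shortExact_quotSec hreg).δ ∘ₗ e.toLinearMap) ∘ ⇑e.symm := by
    funext x
    simp
  rw [this]
  exact hbij.1.comp e.symm.injective

end tensor

end Fermat.Agent.S25.ATLAS.DIV.GoodMem.H2845.H1705
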