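/-
S25 ATLAS/TW (also DIV `Q_chi`) -- helper7705: the genus is invariant under base change.

`genus 𝒞` (frozen `ATLAS/Defs.lean`) is `dim_k H¹` of the unit over `𝒞.chart k`, whereas the
fields `TwistFamily.chi` and `DivAtlas.Q_chi` compare Euler characteristics over an arbitrary
algebraically closed `κ ⊇ k` with `genus 𝒞`.  This file provides the bridge, for EVERY `k`-algebra
`R` (right exactness of `R ⊗[k] -`, nothing else):

* `H1O 𝒞 := A₁₂ ⧸ (r₁ A₁ + r₂ A₂)`   (bare `k`-vector space),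
* `H1UnitEquiv 𝒞 R : (unit (𝒞.chart R)).H1 ≃ₗ[R] R ⊗[k] H1O 𝒞`,
* `free_H1_unit`, `finrank_H1_unit : finrank R H¹(O_R) = genus 𝒞` (`R` nontrivial),
* `genus_eq : genus 𝒞 = finrank k (H1O 𝒞)`.

Imports only the frozen interface.  No sorry.
-/
import Fermat.Agent.S25.ATLAS.Defs

set_option autoImplicit false

universe u

namespace Fermat.Agent.S25.ATLAS.DIV.GoodMem.H2845.H7705

open scoped TensorProduct

open GluedModule

variable {k : Type u} [Field k] (𝒞 : CurveData k)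

/-- The sum `r₁ A₁ + r₂ A₂ ⊆ A₁₂` as a `k`-subspace. -/
def sumRange : Submodule k 𝒞.A₁₂ :=
  LinearMap.range 𝒞.r₁.toLinearMap ⊔ LinearMap.range 𝒞.r₂.toLinearMap

/-- `H¹(C, O)` over `k`, computed on the bare rings: `A₁₂ ⧸ (r₁ A₁ + r₂ A₂)`. -/
abbrev H1O : Type u := 𝒞.A₁₂ ⧸ sumRange 𝒞

variable (R : Type u) [CommRing R] [Algebra k R]

/-- The base change of the quotient map `A₁₂ → H1O`. -/
noncomputable def quotBC : R ⊗[k] 𝒞.A₁₂ →ₗ[R] R ⊗[k] H1O 𝒞 :=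
  (sumRange 𝒞).mkQ.baseChange R

theorem quotBC_tmul (c : R) (a : 𝒞.A₁₂) :
    quotBC 𝒞 R (c ⊗ₜ[k] a) = c ⊗ₜ[k] (sumRange 𝒞).mkQ a := rfl

theorem quotBC_surjective : Function.Surjective (quotBC 𝒞 R) := by
  have h := LinearMap.lTensor_surjective R (sumRange 𝒞).mkQ_surjective
  intro y
  obtain ⟨x, hx⟩ := h y
  exact ⟨x, by rw [← hx, quotBC, LinearMap.baseChange_eq_ltensor]⟩

/-- The Čech differential of the unit over `R`, on the bare tensor products. -/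
noncomputable def d₀ : ((R ⊗[k] 𝒞.A₁) × (R ⊗[k] 𝒞.A₂)) →ₗ[R] R ⊗[k] 𝒞.A₁₂ :=
  (Algebra.TensorProduct.map (AlgHom.id R R) 𝒞.r₁).toLinearMap.comp
      (LinearMap.fst R (R ⊗[k] 𝒞.A₁) (R ⊗[k] 𝒞.A₂)) -
    (Algebra.TensorProduct.map (AlgHom.id R R) 𝒞.r₂).toLinearMap.comp
      (LinearMap.snd R (R ⊗[k] 𝒞.A₁) (R ⊗[k] 𝒞.A₂))

theorem d₀_apply (x : (R ⊗[k] 𝒞.A₁) × (R ⊗[k] 𝒞.A₂)) :
    d₀ 𝒞 R x = Algebra.TensorProduct.map (AlgHom.id R R) 𝒞.r₁ x.1 -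
      Algebra.TensorProduct.map (AlgHom.id R R) 𝒞.r₂ x.2 := rfl

theorem quotBC_r₁ (a : R ⊗[k] 𝒞.A₁) :
    quotBC 𝒞 R (Algebra.TensorProduct.map (AlgHom.id R R) 𝒞.r₁ a) = 0 := by
  induction a using TensorProduct.induction_on with
  | zero => simp
  | tmul c a =>
    rw [Algebra.TensorProduct.map_tmul, AlgHom.id_apply, quotBC_tmul]
    have : (sumRange 𝒞).mkQ (𝒞.r₁ a) = 0 := by
      rw [Submodule.mkQ_apply, Submodule.Quotient.mk_eq_zero]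
      exact Submodule.mem_sup_left ⟨a, rfl⟩
    rw [this, TensorProduct.tmul_zero]
  | add x y hx hy => rw [map_add, map_add, hx, hy, add_zero]

theorem quotBC_r₂ (a : R ⊗[k] 𝒞.A₂) :
    quotBC 𝒞 R (Algebra.TensorProduct.map (AlgHom.id R R) 𝒞.r₂ a) = 0 := by
  induction a using TensorProduct.induction_on with
  | zero => simp
  | tmul c a =>
    rw [Algebra.TensorProduct.map_tmul, AlgHom.id_apply, quotBC_tmul]
    have : (sumRange 𝒞).mkQ (𝒞.r₂ a) = 0 := by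
      rw [Submodule.mkQ_apply, Submodule.Quotient.mk_eq_zero]
      exact Submodule.mem_sup_right ⟨a, rfl⟩
    rw [this, TensorProduct.tmul_zero]
  | add x y hx hy => rw [map_add, map_add, hx, hy, add_zero]

theorem lTensor_subtype_mem_range_d₀ (y : R ⊗[k] sumRange 𝒞) :
    LinearMap.lTensor R (sumRange 𝒞).subtype y ∈ LinearMap.range (d₀ 𝒞 R) := by
  induction y using TensorProduct.induction_on with
  | zero => rw [map_zero]; exact Submodule.zero_mem _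
  | tmul c w =>
    obtain ⟨w, hw⟩ := w
    obtain ⟨w₁, ⟨a, rfl⟩, w₂, ⟨b, rfl⟩, hsum⟩ := Submodule.mem_sup.mp hw
    refine ⟨(c ⊗ₜ[k] a, -(c ⊗ₜ[k] b)), ?_⟩
    rw [d₀_apply]
    simp only [map_neg, Algebra.TensorProduct.map_tmul, sub_neg_eq_add, AlgHom.id_apply,
      LinearMap.lTensor_tmul, Submodule.subtype_apply]
    rw [← TensorProduct.tmul_add]
    congr 1
  | add y z hy hz =>
    rw [map_add]
    exact Submodule.add_mem _ hy hz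

/-- The bare Čech differential of the unit over `R` has range the kernel of `quotBC`. -/
theorem range_d₀ : LinearMap.range (d₀ 𝒞 R) = LinearMap.ker (quotBC 𝒞 R) := by
  apply le_antisymm
  · rintro _ ⟨x, rfl⟩
    rw [LinearMap.mem_ker, d₀_apply, map_sub, quotBC_r₁, quotBC_r₂, sub_zero]
  · intro x hx
    have hex := lTensor_exact R (LinearMap.exact_subtype_mkQ (sumRange 𝒞))
      (sumRange 𝒞).mkQ_surjective
    have hx' : LinearMap.lTensor R (sumRange 𝒞).mkQ x = 0 := by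
      have := LinearMap.mem_ker.mp hx
      rwa [quotBC, LinearMap.baseChange_eq_ltensor] at this
    obtain ⟨y, rfl⟩ := (hex x).mp hx'
    exact lTensor_subtype_mem_range_d₀ 𝒞 R y

/-- Bare form of `H1UnitEquiv`. -/
noncomputable def H1UnitEquiv₀ :
    ((R ⊗[k] 𝒞.A₁₂) ⧸ LinearMap.range (d₀ 𝒞 R)) ≃ₗ[R] R ⊗[k] H1O 𝒞 :=
  (Submodule.quotEquivOfEq _ _ (range_d₀ 𝒞 R)).trans
    (LinearMap.quotKerEquivOfSurjective (quotBC 𝒞 R) (quotBC_surjective 𝒞 R))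

/-- `H¹(C_R, O) ≅ R ⊗[k] H¹(C, O)` for every `k`-algebra `R`. -/
noncomputable def H1UnitEquiv : (unit (𝒞.chart R)).H1 ≃ₗ[R] R ⊗[k] H1O 𝒞 :=
  H1UnitEquiv₀ 𝒞 R

/-- `H¹(C_R, O)` is a free `R`-module. -/
theorem free_H1_unit : Module.Free R (unit (𝒞.chart R)).H1 :=
  Module.Free.of_equiv (H1UnitEquiv 𝒞 R).symm

/-- The rank of `H¹(C_R, O)` is `dim_k H1O`. -/
theorem finrank_H1_unit_eq [Nontrivial R] :
    Module.finrank R (unit (𝒞.chart R)).H1 = Module.finrank k (H1O 𝒞) := by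
  rw [(H1UnitEquiv 𝒞 R).finrank_eq]
  exact Module.finrank_baseChange

/-- The genus on the bare rings. -/
theorem genus_eq : genus 𝒞 = Module.finrank k (H1O 𝒞) :=
  finrank_H1_unit_eq 𝒞 k

/-- **The genus does not depend on the base**: `rank_R H¹(C_R, O) = genus 𝒞`. -/
theorem finrank_H1_unit [Nontrivial R] :
    Module.finrank R (unit (𝒞.chart R)).H1 = genus 𝒞 := by
  rw [finrank_H1_unit_eq, genus_eq]

/-- `H¹(C_R, O)` is a finite `R`-module as soon as `H¹(C, O)` is finite dimensional. -/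
theorem finite_H1_unit [Module.Finite k (H1O 𝒞)] : Module.Finite R (unit (𝒞.chart R)).H1 :=
  Module.Finite.equiv (H1UnitEquiv 𝒞 R).symm

/-! ### (F) for the structure sheaf: `H¹(C, O)` is finite dimensional -/

section finite

variable {𝒞}

theorem r₁_f_pow_mul_r₂_g_pow (n : ℕ) : 𝒞.r₁ 𝒞.f ^ n * 𝒞.r₂ 𝒞.g ^ n = 1 := by
  rw [← mul_pow, 𝒞.fg, one_pow]

/-- The induction predicate: all `g`-power multiples of `r₁ a` lie in `T`. -/
private def GoodElt (T : Submodule k 𝒞.A₁₂) (a : 𝒞.A₁) : Prop :=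
  ∀ n : ℕ, 𝒞.r₁ a * 𝒞.r₂ 𝒞.g ^ n ∈ T

private theorem good_f_pow_mul {T : Submodule k 𝒞.A₁₂}
    (hT : LinearMap.range 𝒞.r₁.toLinearMap ≤ T) {a : 𝒞.A₁} (ha : GoodElt T a) (m : ℕ) :
    GoodElt T (𝒞.f ^ m * a) := by
  intro n
  rcases le_or_gt m n with h | h
  · obtain ⟨d, rfl⟩ := Nat.exists_eq_add_of_le h
    have : 𝒞.r₁ (𝒞.f ^ m * a) * 𝒞.r₂ 𝒞.g ^ (m + d) = 𝒞.r₁ a * 𝒞.r₂ 𝒞.g ^ d := by
      rw [map_mul, map_pow, pow_add]
      calc 𝒞.r₁ 𝒞.f ^ m * 𝒞.r₁ a * (𝒞.r₂ 𝒞.g ^ m * 𝒞.r₂ 𝒞.g ^ d)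
          = (𝒞.r₁ 𝒞.f ^ m * 𝒞.r₂ 𝒞.g ^ m) * (𝒞.r₁ a * 𝒞.r₂ 𝒞.g ^ d) := by ring
        _ = 𝒞.r₁ a * 𝒞.r₂ 𝒞.g ^ d := by rw [r₁_f_pow_mul_r₂_g_pow, one_mul]
    rw [this]
    exact ha d
  · obtain ⟨d, rfl⟩ := Nat.exists_eq_add_of_le h.le
    have : 𝒞.r₁ (𝒞.f ^ (n + d) * a) * 𝒞.r₂ 𝒞.g ^ n = 𝒞.r₁ (𝒞.f ^ d * a) := by
      rw [map_mul, map_pow, pow_add, map_mul, map_pow]
      calc 𝒞.r₁ 𝒞.f ^ n * 𝒞.r₁ 𝒞.f ^ d * 𝒞.r₁ a * 𝒞.r₂ 𝒞.g ^ n
          = (𝒞.r₁ 𝒞.f ^ n * 𝒞.r₂ 𝒞.g ^ n) * (𝒞.r₁ 𝒞.f ^ d * 𝒞.r₁ a) := by ring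
        _ = 𝒞.r₁ 𝒞.f ^ d * 𝒞.r₁ a := by rw [r₁_f_pow_mul_r₂_g_pow, one_mul]
    rw [this]
    exact hT ⟨_, rfl⟩

private theorem good_adjoin_smul {T : Submodule k 𝒞.A₁₂}
    (hT : LinearMap.range 𝒞.r₁.toLinearMap ≤ T) {a : 𝒞.A₁} (ha : GoodElt T a)
    (p : Algebra.adjoin k ({𝒞.f} : Set 𝒞.A₁)) : GoodElt T (p • a) := by
  obtain ⟨p, hp⟩ := p
  rw [Algebra.adjoin_singleton_eq_range_aeval] at hp
  obtain ⟨P, rfl⟩ := hp
  intro n
  change 𝒞.r₁ (Polynomial.aeval 𝒞.f P * a) * 𝒞.r₂ 𝒞.g ^ n ∈ T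
  rw [Polynomial.aeval_eq_sum_range, Finset.sum_mul, map_sum, Finset.sum_mul]
  refine Submodule.sum_mem _ fun i _ => ?_
  have h := good_f_pow_mul hT ha i n
  have e : 𝒞.r₁ (P.coeff i • 𝒞.f ^ i * a) * 𝒞.r₂ 𝒞.g ^ n =
      P.coeff i • (𝒞.r₁ (𝒞.f ^ i * a) * 𝒞.r₂ 𝒞.g ^ n) := by
    rw [smul_mul_assoc, map_smul, smul_mul_assoc]
  rw [e]
  exact T.smul_mem _ h

variable (𝒞)

/-- (F) for `O`: `H¹(C, O) = A₁₂ ⧸ (r₁ A₁ + r₂ A₂)` is finite dimensional over `k`.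
(Uses only `fin₁`, `surj₁`, `surj₂`, `fg`.) -/
theorem finite_H1O : Module.Finite k (H1O 𝒞) := by
  have hfin := 𝒞.fin₁
  obtain ⟨m, e, he⟩ := Module.Finite.exists_fin (R := Algebra.adjoin k ({𝒞.f} : Set 𝒞.A₁))
    (M := 𝒞.A₁)
  -- `r₁ (e i) = r₂ (b i) * r₁ f ^ N i`
  choose b N hbN using fun i : Fin m => 𝒞.surj₂ (𝒞.r₁ (e i))
  let Nmax : ℕ := Finset.univ.sup N
  let G : Set 𝒞.A₁₂ := Set.range fun p : Fin m × Fin Nmax => 𝒞.r₁ (e p.1) * 𝒞.r₂ 𝒞.g ^ (p.2 : ℕ)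
  have hG : G.Finite := Set.finite_range _
  let T : Submodule k 𝒞.A₁₂ := Submodule.span k G ⊔ sumRange 𝒞
  have hT₁ : LinearMap.range 𝒞.r₁.toLinearMap ≤ T :=
    le_trans le_sup_left (le_sup_right : sumRange 𝒞 ≤ T)
  have hT₂ : LinearMap.range 𝒞.r₂.toLinearMap ≤ T :=
    le_trans le_sup_right (le_sup_right : sumRange 𝒞 ≤ T)
  -- the generators are good
  have hbase : ∀ i, GoodElt T (e i) := by
    intro i n
    rcases lt_or_ge n Nmax with h | h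
    · exact Submodule.mem_sup_left (Submodule.subset_span ⟨(i, ⟨n, h⟩), rfl⟩)
    · have hNi : N i ≤ n := le_trans (Finset.le_sup (Finset.mem_univ i)) h
      obtain ⟨d, rfl⟩ := Nat.exists_eq_add_of_le hNi
      have : 𝒞.r₁ (e i) * 𝒞.r₂ 𝒞.g ^ (N i + d) = 𝒞.r₂ (b i * 𝒞.g ^ d) := by
        rw [hbN i, pow_add, map_mul, map_pow]
        calc 𝒞.r₂ (b i) * 𝒞.r₁ 𝒞.f ^ N i * (𝒞.r₂ 𝒞.g ^ N i * 𝒞.r₂ 𝒞.g ^ d)
            = (𝒞.r₁ 𝒞.f ^ N i * 𝒞.r₂ 𝒞.g ^ N i) * (𝒞.r₂ (b i) * 𝒞.r₂ 𝒞.g ^ d) := by ring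
          _ = 𝒞.r₂ (b i) * 𝒞.r₂ 𝒞.g ^ d := by rw [r₁_f_pow_mul_r₂_g_pow, one_mul]
      rw [this]
      exact hT₂ ⟨_, rfl⟩
  -- every element of `A₁` is good
  have hall : ∀ a : 𝒞.A₁, GoodElt T a := by
    intro a
    have ha : a ∈ Submodule.span (Algebra.adjoin k ({𝒞.f} : Set 𝒞.A₁)) (Set.range e) := by
      rw [he]; exact Submodule.mem_top
    induction ha using Submodule.span_induction with
    | mem x hx =>
      obtain ⟨i, rfl⟩ := hx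
      exact hbase i
    | zero => intro n; simp
    | add x y _ _ hx hy =>
      intro n
      rw [map_add, add_mul]
      exact T.add_mem (hx n) (hy n)
    | smul p x _ hx => exact good_adjoin_smul hT₁ hx p
  have htop : T = ⊤ := by
    rw [eq_top_iff]
    intro y _
    obtain ⟨a, n, rfl⟩ := 𝒞.surj₁ y
    exact hall a n
  -- conclude
  have : Module.Finite k (Submodule.span k G) := Module.Finite.span_of_finite k hG
  refine Module.Finite.of_surjective ((sumRange 𝒞).mkQ.comp (Submodule.span k G).subtype) ?_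
  intro y
  obtain ⟨y, rfl⟩ := (sumRange 𝒞).mkQ_surjective y
  have hy : y ∈ T := by rw [htop]; exact Submodule.mem_top
  obtain ⟨y₁, hy₁, y₂, hy₂, rfl⟩ := Submodule.mem_sup.mp hy
  refine ⟨⟨y₁, hy₁⟩, ?_⟩
  simp only [LinearMap.comp_apply, Submodule.subtype_apply, Submodule.mkQ_apply]
  rw [Submodule.Quotient.mk_add, (Submodule.Quotient.mk_eq_zero _).mpr hy₂, add_zero]

end finite

/-- (F) for `O` over every base: `H¹(C_R, O)` is a finite free `R`-module of rank `genus 𝒞`. -/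
theorem finite_H1_unit' : Module.Finite R (unit (𝒞.chart R)).H1 :=
  have := finite_H1O 𝒞
  finite_H1_unit 𝒞 R

end Fermat.Agent.S25.ATLAS.DIV.GoodMem.H2845.H7705
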