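/-
S25 package ATLAS, sub-package DIV, area DIV-C (`good_mem`), helper4150.

FIELD HALF of `DivAtlas.good_mem`: for a line bundle `M` over `𝒞.chart κ` (`κ` any field over
the algebraically closed `k`) which is `Good` (frozen `ATLAS/Defs`), the canonical data of the
divisor chart exist:
* a REGULAR global section `s` generating `H⁰(M)` (`H⁰(O) → H⁰(M)` onto), not vanishing at `ε`;
* (C2) in order-ideal form `𝔞₂ ⊔ (g) = ⊤`, hence `M / sO` lives on the first chart;
* `B₁ ⧸ 𝔞₁` (`𝔞₁ = ordIdeal₁ M s`) is a `κ`-vector space of dimension `genus 𝒞`;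
* a tuple `b : Fin (genus 𝒞) → 𝒞.A₁` whose images `1 ⊗ b i` form a `κ`-basis of `B₁ ⧸ 𝔞₁`
  (this is the choice of the Hilbert chart `S_b` through the point `D = V(𝔞₁)`).

Vocabulary: frozen `Core`/`A1.Basic`/`Defs`/`ATLAS.Defs` + helper1705's `DIV/H1705` (verbatim:
`ofSection`, `IsRegularSec`, `quotSec`, `ordIdeal₁/₂`, `quotSecEquivH1`) + helper7705's
`TW/H7705/Genus` (verbatim: `H¹(O_κ)` finite of rank `genus 𝒞`) + helper10's
`Lib/Curve/TensorDomain` (verbatim: `κ ⊗[k] A` is a domain).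
-/
import Fermat.Agent.S25.ATLAS.Defs
import Fermat.Agent.S25.ATLAS.DIV.GoodMem.H2845.Flat
import Fermat.Agent.S25.ATLAS.DIV.GoodMem.H2845.Genus
import Fermat.Agent.S25.Lib.Curve.TensorDomain

set_option autoImplicit false

universe u

namespace Fermat.Agent.S25.ATLAS.DIV.GoodMem.H2845.H4150

open Fermat.Agent.S25 Fermat.Agent.S25.GluedModule Function
open scoped TensorProduct

/-! ### Invertible modules over a domain -/

section Invertible

variable {B L : Type*} [CommRing B] [IsDomain B] [AddCommGroup L] [Module B L]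
  [Module.Invertible B L]

/-- An invertible module over a domain is torsion free. -/
theorem eq_zero_of_smul_eq_zero {b : B} {s : L} (h : b • s = 0) (hs : s ≠ 0) : b = 0 := by
  by_contra hb
  have hreg : IsSMulRegular L b :=
    Module.Flat.isSMulRegular_of_isRegular (IsRegular.of_ne_zero hb)
  exact hs (hreg (by simpa using h))

/-- `I • L = L` for a nonzero invertible module over a domain forces `I = ⊤`. -/
theorem ideal_eq_top_of_smul_top_eq_top (I : Ideal B) {s : L} (hs : s ≠ 0)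
    (h : I • (⊤ : Submodule B L) = ⊤) : I = ⊤ := by
  have hfg : (⊤ : Submodule B L).FG := Module.Finite.fg_top
  obtain ⟨r, hr, hr0⟩ :=
    Submodule.exists_sub_one_mem_and_smul_eq_zero_of_fg_of_le_smul I ⊤ hfg (by rw [h])
  have hr' : r = 0 := eq_zero_of_smul_eq_zero (hr0 s trivial) hs
  rw [hr', zero_sub] at hr
  exact (Ideal.eq_top_iff_one I).2 (by simpa using I.neg_mem hr)

end Invertible

/-! ### The charts of a curve over a field are domains -/

section Field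

variable {k : Type u} [Field k] [IsAlgClosed k] (𝒞 : CurveData k)
variable (κ : Type u) [Field κ] [Algebra k κ]

theorem isDomain_B₁ : IsDomain (𝒞.chart κ).B₁ :=
  haveI := 𝒞.dom₁
  (Lib.Curve.isDomain_tensorProduct_of_isAlgClosed : IsDomain (κ ⊗[k] 𝒞.A₁))

theorem isDomain_B₂ : IsDomain (𝒞.chart κ).B₂ :=
  haveI := 𝒞.dom₂
  (Lib.Curve.isDomain_tensorProduct_of_isAlgClosed : IsDomain (κ ⊗[k] 𝒞.A₂))

omit [IsAlgClosed k] in
theorem r₁_injective : Injective (𝒞.chart κ).r₁ := chart_aux_inj κ 𝒞.r₁ 𝒞.inj₁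

theorem f_ne_zero : (𝒞.chart κ).f ≠ 0 := by
  have := isDomain_B₁ 𝒞 κ
  intro hf
  have h1 : ((𝒞.chart κ).r₁ (1 : (𝒞.chart κ).B₁)) = (𝒞.chart κ).r₁ 0 := by
    have h := (𝒞.chart κ).fg
    rw [hf, map_zero, zero_mul] at h
    rw [map_one, map_zero]
    exact h.symm
  exact one_ne_zero (r₁_injective 𝒞 κ h1)

end Field

/-! ### Linear algebra: a basis inside a spanning set -/

section Basis

open Module

/-- A finite-dimensional vector space spanned by a set `S` has a basis consisting of elements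
of `S`, indexed by `Fin (finrank)`. -/
theorem exists_basis_mem_of_span_eq_top {κ V : Type*} [Field κ] [AddCommGroup V] [Module κ V]
    [Module.Finite κ V] {S : Set V} (hS : Submodule.span κ S = ⊤) {n : ℕ}
    (hn : Module.finrank κ V = n) :
    ∃ bas : Basis (Fin n) κ V, ∀ i, bas i ∈ S := by
  obtain ⟨b, hbS, hspan, hli⟩ := exists_linearIndependent κ S
  let B : Basis b κ V := Basis.mk hli (by rw [Subtype.range_coe, hspan, hS])
  haveI : Fintype b := FiniteDimensional.fintypeBasisIndex B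
  have hcard : Fintype.card b = n := by rw [← hn, Module.finrank_eq_card_basis B]
  refine ⟨B.reindex (Fintype.equivFinOfCardEq hcard), fun i => ?_⟩
  rw [Basis.reindex_apply, Basis.mk_apply]
  exact hbS (Subtype.property _)

end Basis

/-! ### Quotients of `κ ⊗[k] A` are spanned by `A` -/

section Span

variable {k κ A : Type*} [Field k] [Field κ] [Algebra k κ] [CommRing A] [Algebra k A]

theorem span_range_mk_one_tmul_aux (I : Ideal (κ ⊗[k] A)) :
    Submodule.span κ (Set.range fun a : A =>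
      (Ideal.Quotient.mk I ((1 : κ) ⊗ₜ[k] a) : (κ ⊗[k] A) ⧸ I)) = ⊤ := by
  rw [eq_top_iff]
  rintro x -
  obtain ⟨y, rfl⟩ := Ideal.Quotient.mk_surjective x
  induction y using TensorProduct.induction_on with
  | zero => rw [map_zero]; exact Submodule.zero_mem _
  | tmul c a =>
    have h : (Ideal.Quotient.mk I (c ⊗ₜ[k] a) : (κ ⊗[k] A) ⧸ I) =
        c • (Ideal.Quotient.mk I ((1 : κ) ⊗ₜ[k] a) : (κ ⊗[k] A) ⧸ I) := by
      have h' : (c ⊗ₜ[k] a : κ ⊗[k] A) = c • ((1 : κ) ⊗ₜ[k] a : κ ⊗[k] A) := by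
        rw [TensorProduct.smul_tmul', smul_eq_mul, mul_one]
      rw [h']
      rfl
    rw [h]
    exact Submodule.smul_mem _ _ (Submodule.subset_span ⟨a, rfl⟩)
  | add x y hx hy => rw [map_add]; exact Submodule.add_mem _ hx hy

end Span

/-! ### Good bundles over a field -/

section Good

variable {k : Type u} [Field k] [IsAlgClosed k] (𝒞 : CurveData k)
variable {κ : Type u} [Field κ] [Algebra k κ] {M : GluedModule (𝒞.chart κ)}

/-- The section of a good bundle is regular, generates `H⁰`, and its zero scheme misses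
`V(g)` (order-ideal form of (C2)). -/
theorem good_exists_section (hM : M.IsLineBundle) (hG : Good 𝒞 M) :
    ∃ s : M.H0,
      H1705.IsRegularSec M s ∧ Surjective (H1705.ofSection M s).H0 ∧
      (s : M.N₁ × M.N₂).1 ∉
        (RingHom.ker (𝒞.epsR κ : (𝒞.chart κ).B₁ →+* κ)) •
          (⊤ : Submodule (𝒞.chart κ).B₁ M.N₁) ∧
      H1705.ordIdeal₂ M s ⊔ Ideal.span {(𝒞.chart κ).g} = ⊤ := by
  obtain ⟨s, hs₁, hs₂⟩ := hG.sec
  haveI := isDomain_B₁ 𝒞 κ
  haveI := isDomain_B₂ 𝒞 κ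
  haveI := hM.inv₁
  haveI := hM.inv₂
  have h1 : (s : M.N₁ × M.N₂).1 ≠ 0 := by
    intro h0
    apply hs₁
    rw [h0]
    exact Submodule.zero_mem _
  have h2 : (s : M.N₁ × M.N₂).2 ≠ 0 := by
    intro h0
    have hmem := (GluedModule.mem_H0 M s).1 s.2
    rw [h0, map_zero] at hmem
    obtain ⟨m, hm⟩ := M.ker₁ _ hmem
    exact pow_ne_zero m (f_ne_zero 𝒞 κ) (eq_zero_of_smul_eq_zero hm h1)
  refine ⟨s, ⟨fun b hb => eq_zero_of_smul_eq_zero hb h1,
    fun b hb => eq_zero_of_smul_eq_zero hb h2⟩, ?_, hs₁, ?_⟩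
  · have hs0 : s ≠ 0 := fun h => h1 (by rw [h]; rfl)
    intro t
    obtain ⟨c, hc⟩ := (finrank_eq_one_iff_of_nonzero' s hs0).1 hG.h0 t
    refine ⟨⟨(algebraMap κ (𝒞.chart κ).B₁ c, algebraMap κ (𝒞.chart κ).B₂ c), ?_⟩, ?_⟩
    · rw [GluedModule.mem_H0]
      change (𝒞.chart κ).r₁ (algebraMap κ (𝒞.chart κ).B₁ c) =
        (𝒞.chart κ).r₂ (algebraMap κ (𝒞.chart κ).B₂ c)
      rw [AlgHom.commutes, AlgHom.commutes]
    · apply Subtype.ext
      rw [← hc]
      change (algebraMap κ (𝒞.chart κ).B₁ c • (s : M.N₁ × M.N₂).1,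
          algebraMap κ (𝒞.chart κ).B₂ c • (s : M.N₁ × M.N₂).2) =
        c • (s : M.N₁ × M.N₂)
      rw [algebraMap_smul, algebraMap_smul]
      rfl
  · apply ideal_eq_top_of_smul_top_eq_top (L := M.N₂) _ h2
    rw [Submodule.sup_smul, H1705.ordIdeal₂_smul_top hM s, H1705.range_ofSection_φ₂]
    exact hs₂

omit [IsAlgClosed k] in
/-- For a generating regular section whose zero scheme misses `V(g)`, the coordinate ring
`B₁ ⧸ 𝔞₁` of the zero scheme has dimension `genus 𝒞`. -/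
theorem finrank_quot_ordIdeal₁ (hM : M.IsLineBundle) [Subsingleton M.H1] {s : M.H0}
    (hreg : H1705.IsRegularSec M s) (hsurj : Surjective (H1705.ofSection M s).H0)
    (hC2 : H1705.ordIdeal₂ M s ⊔ Ideal.span {(𝒞.chart κ).g} = ⊤) :
    Module.Finite κ ((𝒞.chart κ).B₁ ⧸ H1705.ordIdeal₁ M s) ∧
      Module.finrank κ ((𝒞.chart κ).B₁ ⧸ H1705.ordIdeal₁ M s) = genus 𝒞 := by
  haveI := H7705.finite_H1_unit' 𝒞 κ
  have hι := H1705.bijective_ι₂_quotSec hM s hC2
  haveI hfin := H1705.flat_finite hM hreg hι hsurj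
  refine ⟨hfin, ?_⟩
  haveI := hM.inv₁
  let e : (((𝒞.chart κ).B₁ ⧸ H1705.ordIdeal₁ M s) ⊗[(𝒞.chart κ).B₁] M.N₁) ≃ₗ[κ]
      (GluedModule.unit (𝒞.chart κ)).H1 :=
    ((H1705.tensorQuotSecEquiv hM s).restrictScalars κ).trans
      (H1705.quotSecEquivH1 hreg hι hsurj)
  rw [← H1705.finrank_eq_of_invertible_over κ ((𝒞.chart κ).B₁ ⧸ H1705.ordIdeal₁ M s)
    (((𝒞.chart κ).B₁ ⧸ H1705.ordIdeal₁ M s) ⊗[(𝒞.chart κ).B₁] M.N₁), e.finrank_eq,
    H7705.finrank_H1_unit 𝒞 κ]

omit [IsAlgClosed k] in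
/-- The images of `1 ⊗ a`, `a ∈ A₁`, span every quotient of `κ ⊗[k] A₁` over `κ`. -/
theorem span_range_mk_one_tmul (I : Ideal (𝒞.chart κ).B₁) :
    Submodule.span κ (Set.range fun a : 𝒞.A₁ =>
      (Ideal.Quotient.mk I ((1 : κ) ⊗ₜ[k] a : κ ⊗[k] 𝒞.A₁) : (𝒞.chart κ).B₁ ⧸ I)) = ⊤ :=
  span_range_mk_one_tmul_aux (k := k) (κ := κ) (A := 𝒞.A₁) I

/-- **Field half of `good_mem`.**  A good line bundle over a field has a regular generating
section `s` (not vanishing at `ε`, zero scheme inside the first chart) and a tuple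
`b : Fin (genus 𝒞) → A₁` whose images form a `κ`-basis of the coordinate ring `B₁ ⧸ 𝔞₁` of the
zero scheme of `s`: the bundle defines a `κ`-point of the Hilbert chart `S_b`. -/
theorem good_exists_chart_data (hM : M.IsLineBundle) (hG : Good 𝒞 M) :
    ∃ (s : M.H0) (b : Fin (genus 𝒞) → 𝒞.A₁)
      (bas : Module.Basis (Fin (genus 𝒞)) κ ((𝒞.chart κ).B₁ ⧸ H1705.ordIdeal₁ M s)),
      H1705.IsRegularSec M s ∧ Surjective (H1705.ofSection M s).H0 ∧
      (s : M.N₁ × M.N₂).1 ∉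
        (RingHom.ker (𝒞.epsR κ : (𝒞.chart κ).B₁ →+* κ)) •
          (⊤ : Submodule (𝒞.chart κ).B₁ M.N₁) ∧
      H1705.ordIdeal₂ M s ⊔ Ideal.span {(𝒞.chart κ).g} = ⊤ ∧
      ∀ i, bas i = Ideal.Quotient.mk (H1705.ordIdeal₁ M s)
        ((1 : κ) ⊗ₜ[k] b i : κ ⊗[k] 𝒞.A₁) := by
  obtain ⟨s, hreg, hsurj, heps, hC2⟩ := good_exists_section 𝒞 hM hG
  haveI := hG.h1
  obtain ⟨hfin, hrank⟩ := finrank_quot_ordIdeal₁ 𝒞 hM hreg hsurj hC2
  obtain ⟨bas, hbas⟩ := exists_basis_mem_of_span_eq_top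
    (span_range_mk_one_tmul 𝒞 (H1705.ordIdeal₁ M s)) hrank
  choose b hb using hbas
  exact ⟨s, b, bas, hreg, hsurj, heps, hC2, fun i => (hb i).symm⟩

end Good

end Fermat.Agent.S25.ATLAS.DIV.GoodMem.H2845.H4150
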