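/-
S25 ATLAS/DIV leaf GoodMem, sub-leaves GM1 / GM2 (helper2845): glue between the frozen
vocabulary (`IsCan`, `IsRegSec`, `zeroIdeal₁`, `IsFreeOn`) and the field-level pieces of
helper4150 (`GoodField`), helper1705 (`Coker/Section/InvRank/Flat`), helper7705 (`Genus`),
copied verbatim (namespaces renamed) next to this file.
-/
import Fermat.Agent.S25.ATLAS.DIV.Defs
import Fermat.Agent.S25.ATLAS.DIV.GoodMem.H2845.GoodField

set_option autoImplicit false

universe u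

namespace Fermat.Agent.S25.ATLAS.DIV.GoodMem.H2845

open Fermat.Agent.S25 Fermat.Agent.S25.GluedModule Function
open scoped TensorProduct

/-! ### Invertible modules modulo a maximal ideal -/

section Maximal

variable {B L : Type*} [CommRing B] [AddCommGroup L] [Module B L] [Module.Invertible B L]

/-- An invertible module is not killed by a maximal ideal. -/
theorem smul_top_ne_top (𝔪 : Ideal B) [h𝔪 : 𝔪.IsMaximal] :
    𝔪 • (⊤ : Submodule B L) ≠ ⊤ := by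
  intro h
  have hfg : (⊤ : Submodule B L).FG := Module.Finite.fg_top
  obtain ⟨r, hr, hr0⟩ :=
    Submodule.exists_sub_one_mem_and_smul_eq_zero_of_fg_of_le_smul 𝔪 ⊤ hfg (by rw [h])
  have hr' : r = 0 := by
    have : ∀ n : L, r • n = (0 : B) • n := fun n => by rw [zero_smul]; exact hr0 n trivial
    exact FaithfulSMul.eq_of_smul_eq_smul this
  rw [hr', zero_sub] at hr
  exact h𝔪.ne_top ((Ideal.eq_top_iff_one 𝔪).2 (by simpa using 𝔪.neg_mem hr))

/-- For a maximal ideal `𝔪` and an invertible module `L`, an element outside `𝔪 L` generates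
`L` modulo `𝔪`. -/
theorem span_sup_smul_top_of_notMem (𝔪 : Ideal B) [h𝔪 : 𝔪.IsMaximal] {s : L}
    (hs : s ∉ 𝔪 • (⊤ : Submodule B L)) :
    Submodule.span B {s} ⊔ 𝔪 • (⊤ : Submodule B L) = ⊤ := by
  letI : Field (B ⧸ 𝔪) := Ideal.Quotient.field 𝔪
  have hfr : Module.finrank (B ⧸ 𝔪) ((B ⧸ 𝔪) ⊗[B] L) = 1 :=
    Module.Invertible.finrank_eq_one (B ⧸ 𝔪) ((B ⧸ 𝔪) ⊗[B] L)
  have key : ∀ l : L, ((1 : B ⧸ 𝔪) ⊗ₜ[B] l) = 0 ↔ l ∈ 𝔪 • (⊤ : Submodule B L) := by
    intro l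
    rw [← (TensorProduct.quotTensorEquivQuotSMul L 𝔪).map_eq_zero_iff,
      ← map_one (Ideal.Quotient.mk 𝔪), TensorProduct.quotTensorEquivQuotSMul_mk_tmul, one_smul,
      Submodule.Quotient.mk_eq_zero]
  have hv : ((1 : B ⧸ 𝔪) ⊗ₜ[B] s) ≠ 0 := fun h0 => hs ((key s).1 h0)
  rw [eq_top_iff]
  intro l _
  obtain ⟨c, hc⟩ := (finrank_eq_one_iff_of_nonzero' _ hv).1 hfr ((1 : B ⧸ 𝔪) ⊗ₜ[B] l)
  obtain ⟨c, rfl⟩ := Ideal.Quotient.mk_surjective c
  have h3 : (Ideal.Quotient.mk 𝔪 c) • ((1 : B ⧸ 𝔪) ⊗ₜ[B] s) = (1 : B ⧸ 𝔪) ⊗ₜ[B] (c • s) := by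
    rw [TensorProduct.smul_tmul', smul_eq_mul, mul_one, TensorProduct.tmul_smul,
      TensorProduct.smul_tmul']
    congr 1
    rw [Algebra.smul_def, mul_one]
    rfl
  have h1 : ((1 : B ⧸ 𝔪) ⊗ₜ[B] (l - c • s)) = 0 := by
    rw [TensorProduct.tmul_sub, ← hc, h3, sub_self]
  have h2 := (key _).1 h1
  have : l = c • s + (l - c • s) := by abel
  rw [this]
  exact Submodule.add_mem _
    (Submodule.mem_sup_left (Submodule.smul_mem _ _ (Submodule.mem_span_singleton_self s)))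
    (Submodule.mem_sup_right h2)

end Maximal

/-! ### Canonical sections over a field -/

section Field

variable {k : Type u} [Field k] (𝒞 : CurveData k)
variable {κ : Type u} [Field κ] [Algebra k κ] {M : GluedModule (𝒞.chart κ)}

/-- The ideal of the point `ε` of the first chart over a field is maximal. -/
theorem ker_epsR_isMaximal :
    (RingHom.ker (𝒞.epsR κ : (𝒞.chart κ).B₁ →+* κ)).IsMaximal :=
  RingHom.ker_isMaximal_of_surjective _ fun z =>
    ⟨algebraMap κ (𝒞.chart κ).B₁ z, by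
      change 𝒞.epsR κ (algebraMap κ (𝒞.chart κ).B₁ z) = z
      rw [AlgHom.commutes]; rfl⟩

variable [IsAlgClosed k]

omit [IsAlgClosed k] in
/-- A section generating the `ε`-fibre of a line bundle over a field is non-zero on the
first chart. -/
theorem fst_ne_zero_of_eps (hM : M.IsLineBundle) {s : M.N₁ × M.N₂}
    (heps : Submodule.span (𝒞.chart κ).B₁ {s.1} ⊔
      (RingHom.ker (𝒞.epsR κ : (𝒞.chart κ).B₁ →+* κ)) •
        (⊤ : Submodule (𝒞.chart κ).B₁ M.N₁) = ⊤) : s.1 ≠ 0 := by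
  haveI := hM.inv₁
  haveI := ker_epsR_isMaximal 𝒞 (κ := κ)
  intro h0
  rw [h0, Submodule.span_zero_singleton, bot_sup_eq] at heps
  exact smul_top_ne_top (L := M.N₁) _ heps

/-- A global section which is non-zero on the first chart is non-zero on the second. -/
theorem snd_ne_zero_of_fst_ne_zero (hM : M.IsLineBundle) {s : M.N₁ × M.N₂} (hs : s ∈ M.H0)
    (h1 : s.1 ≠ 0) : s.2 ≠ 0 := by
  haveI := H4150.isDomain_B₁ 𝒞 κ
  haveI := hM.inv₁
  intro h0
  have hmem := (GluedModule.mem_H0 M s).1 hs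
  rw [h0, map_zero] at hmem
  obtain ⟨m, hm⟩ := M.ker₁ _ hmem
  exact pow_ne_zero m (H4150.f_ne_zero 𝒞 κ) (H4150.eq_zero_of_smul_eq_zero hm h1)

/-- A global section of a line bundle over a field which is non-zero on the first chart is
regular on both charts (helper1705's form). -/
theorem isRegularSec_of_fst_ne_zero (hM : M.IsLineBundle) {s : M.N₁ × M.N₂} (hs : s ∈ M.H0)
    (h1 : s.1 ≠ 0) : H1705.IsRegularSec M ⟨s, hs⟩ := by
  haveI := H4150.isDomain_B₁ 𝒞 κ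
  haveI := H4150.isDomain_B₂ 𝒞 κ
  haveI := hM.inv₁
  haveI := hM.inv₂
  have h2 := snd_ne_zero_of_fst_ne_zero 𝒞 hM hs h1
  exact ⟨fun b hb => H4150.eq_zero_of_smul_eq_zero hb h1,
    fun b hb => H4150.eq_zero_of_smul_eq_zero hb h2⟩

omit [IsAlgClosed k] in
/-- helper1705's regularity gives the frozen `IsRegSec`. -/
theorem isRegSec_of_isRegularSec {s : M.N₁ × M.N₂} {hs : s ∈ M.H0}
    (h : H1705.IsRegularSec M ⟨s, hs⟩) : IsRegSec M s := by
  constructor
  · intro b b' hbb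
    have : (b - b') • s.1 = 0 := by rw [sub_smul]; exact sub_eq_zero.2 hbb
    exact sub_eq_zero.1 (h.reg₁ _ this)
  · intro b b' hbb
    have : (b - b') • s.2 = 0 := by rw [sub_smul]; exact sub_eq_zero.2 hbb
    exact sub_eq_zero.1 (h.reg₂ _ this)

omit [IsAlgClosed k] in
/-- If every global section is a multiple of `s`, then `H⁰(O) → H⁰(M)`, `1 ↦ s`, is onto. -/
theorem surjective_ofSection_H0 {s : M.N₁ × M.N₂} (hs : s ∈ M.H0)
    (hgen : ∀ t : M.N₁ × M.N₂, t ∈ M.H0 → ∃ r : κ, t = r • s) :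
    Surjective (H1705.ofSection M ⟨s, hs⟩).H0 := by
  intro t
  obtain ⟨c, hc⟩ := hgen t t.2
  refine ⟨⟨(algebraMap κ (𝒞.chart κ).B₁ c, algebraMap κ (𝒞.chart κ).B₂ c), ?_⟩, ?_⟩
  · rw [GluedModule.mem_H0]
    change (𝒞.chart κ).r₁ (algebraMap κ (𝒞.chart κ).B₁ c) =
      (𝒞.chart κ).r₂ (algebraMap κ (𝒞.chart κ).B₂ c)
    rw [AlgHom.commutes, AlgHom.commutes]
  · apply Subtype.ext
    rw [hc]
    change (algebraMap κ (𝒞.chart κ).B₁ c • s.1, algebraMap κ (𝒞.chart κ).B₂ c • s.2) = c • s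
    rw [algebraMap_smul, algebraMap_smul]
    rfl

/-- (C2) in order-ideal form. -/
theorem ordIdeal₂_sup_span_g (hM : M.IsLineBundle) {s : M.N₁ × M.N₂} (hs : s ∈ M.H0)
    (h2 : s.2 ≠ 0)
    (haway : Submodule.span (𝒞.chart κ).B₂ {s.2} ⊔
      (Ideal.span {(𝒞.chart κ).g}) • (⊤ : Submodule (𝒞.chart κ).B₂ M.N₂) = ⊤) :
    H1705.ordIdeal₂ M ⟨s, hs⟩ ⊔ Ideal.span {(𝒞.chart κ).g} = ⊤ := by
  haveI := H4150.isDomain_B₂ 𝒞 κ
  haveI := hM.inv₂
  apply H4150.ideal_eq_top_of_smul_top_eq_top (L := M.N₂) _ h2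
  rw [Submodule.sup_smul, H1705.ordIdeal₂_smul_top hM ⟨s, hs⟩, H1705.range_ofSection_φ₂]
  exact haway

end Field

end Fermat.Agent.S25.ATLAS.DIV.GoodMem.H2845
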